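import Fermat.Agent.PeriodicFractions.Basic
import Mathlib.Analysis.SpecificLimits.Normed

/-!
# Reals with prescribed continued fraction digits
-/

set_option autoImplicit false

noncomputable section

open Finset Filter Topology

namespace FA.GoodTheorem

open FA.PeriodicFractions

/-- The finite continued fraction `[0; a 0, ..., a (n - 1)]`. -/
def cfApprox : (ℕ → ℕ) → ℕ → ℝ
  | _, 0 => 0
  | a, n + 1 => 1 / ((a 0 : ℝ) + cfApprox (fun i => a (i + 1)) n)

/-- The continued fraction `[0; a 0, a 1, ...]`. -/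
def cfValue (a : ℕ → ℕ) : ℝ := limUnder atTop (cfApprox a)

theorem cfApprox_mem {a : ℕ → ℕ} (ha : ∀ i, 2 ≤ a i) :
    ∀ n, 0 ≤ cfApprox a n ∧ cfApprox a n ≤ 1 / 2 := by
  intro n
  induction n generalizing a with
  | zero => simp [cfApprox]
  | succ n ih =>
    obtain ⟨h0, -⟩ := ih (a := fun i => a (i + 1)) fun i => ha (i + 1)
    have h2 : (2 : ℝ) ≤ a 0 := by exact_mod_cast ha 0
    rw [cfApprox]
    exact ⟨by positivity, one_div_le_one_div_of_le two_pos (by linarith)⟩

theorem abs_inv_sub_inv {A u v : ℝ} (hu : 0 < A + u) (hv : 0 < A + v) :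
    |1 / (A + u) - 1 / (A + v)| = |u - v| / ((A + u) * (A + v)) := by
  rw [div_sub_div _ _ hu.ne' hv.ne', abs_div, abs_of_pos (mul_pos hu hv), one_mul, mul_one,
    add_sub_add_left_eq_sub, abs_sub_comm]

theorem abs_cfApprox_succ_sub {a : ℕ → ℕ} (ha : ∀ i, 2 ≤ a i) :
    ∀ n, |cfApprox a (n + 1) - cfApprox a n| ≤ (1 / 4) ^ n := by
  intro n
  induction n generalizing a with
  | zero =>
    obtain ⟨h0, h1⟩ := cfApprox_mem ha 1
    rw [show cfApprox a 0 = 0 from rfl, sub_zero, pow_zero, abs_of_nonneg h0]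
    linarith
  | succ n ih =>
    have h2 : (2 : ℝ) ≤ a 0 := by exact_mod_cast ha 0
    obtain ⟨u0, -⟩ := cfApprox_mem (a := fun i => a (i + 1)) (fun i => ha (i + 1)) (n + 1)
    obtain ⟨v0, -⟩ := cfApprox_mem (a := fun i => a (i + 1)) (fun i => ha (i + 1)) n
    change |1 / ((a 0 : ℝ) + cfApprox (fun i => a (i + 1)) (n + 1)) -
      1 / ((a 0 : ℝ) + cfApprox (fun i => a (i + 1)) n)| ≤ _
    rw [abs_inv_sub_inv (by linarith) (by linarith), pow_succ, div_le_iff₀ (by positivity)]
    refine (ih (a := fun i => a (i + 1)) fun i => ha (i + 1)).trans ?_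
    rw [mul_assoc]
    refine le_mul_of_one_le_right (by positivity) ?_
    nlinarith

theorem tendsto_cfApprox {a : ℕ → ℕ} (ha : ∀ i, 2 ≤ a i) :
    Tendsto (cfApprox a) atTop (𝓝 (cfValue a)) :=
  (cauchySeq_of_le_geometric (1 / 4) 1 (by norm_num) fun n => by
    rw [one_mul, Real.dist_eq, abs_sub_comm]
    exact abs_cfApprox_succ_sub ha n).tendsto_limUnder

theorem cfValue_mem {a : ℕ → ℕ} (ha : ∀ i, 2 ≤ a i) : 0 ≤ cfValue a ∧ cfValue a ≤ 1 / 2 :=
  ⟨ge_of_tendsto' (tendsto_cfApprox ha) fun n => (cfApprox_mem ha n).1,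
    le_of_tendsto' (tendsto_cfApprox ha) fun n => (cfApprox_mem ha n).2⟩

theorem cfValue_eq {a : ℕ → ℕ} (ha : ∀ i, 2 ≤ a i) :
    cfValue a = 1 / ((a 0 : ℝ) + cfValue fun i => a (i + 1)) := by
  have h' : ∀ i, 2 ≤ a (i + 1) := fun i => ha (i + 1)
  have hne : (a 0 : ℝ) + cfValue (fun i => a (i + 1)) ≠ 0 := by
    have h2 : (2 : ℝ) ≤ a 0 := by exact_mod_cast ha 0
    have := (cfValue_mem h').1
    positivity
  refine tendsto_nhds_unique ((tendsto_cfApprox ha).comp (tendsto_add_atTop_nat 1)) ?_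
  exact ((tendsto_const_nhds.add (tendsto_cfApprox h')).inv₀ hne).congr'
    (Eventually.of_forall fun n => by simp [Function.comp, cfApprox]) |>.trans_eq
    (by rw [one_div])

theorem cfValue_pos {a : ℕ → ℕ} (ha : ∀ i, 2 ≤ a i) : 0 < cfValue a := by
  rw [cfValue_eq ha]
  have h2 : (2 : ℝ) ≤ a 0 := by exact_mod_cast ha 0
  have := (cfValue_mem (a := fun i => a (i + 1)) fun i => ha (i + 1)).1
  positivity

theorem cq_cfValue {a : ℕ → ℕ} (ha : ∀ i, 2 ≤ a i) :
    ∀ n, cq (cfValue a) (n + 1) = (a n : ℝ) + cfValue fun i => a (i + (n + 1)) := by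
  intro n
  induction n generalizing a with
  | zero =>
    obtain ⟨h0, h1⟩ := cfValue_mem ha
    rw [cq, cq, Int.fract_eq_self.2 ⟨h0, by linarith⟩, cfValue_eq ha, one_div, inv_inv]
  | succ n ih =>
    obtain ⟨h0, h1⟩ := cfValue_mem ha
    have h' : ∀ i, 2 ≤ a (i + 1) := fun i => ha (i + 1)
    obtain ⟨h0', h1'⟩ := cfValue_mem h'
    rw [cq_succ', Int.fract_eq_self.2 ⟨h0, by linarith⟩, cfValue_eq ha, one_div, inv_inv,
      cq_succ', Int.fract_natCast_add, ← cq_succ', ih h']
    simp only [add_assoc, add_comm 1]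

theorem digit_cfValue {a : ℕ → ℕ} (ha : ∀ i, 2 ≤ a i) (n : ℕ) :
    digit (cfValue a) (n + 1) = a n := by
  obtain ⟨h0, h1⟩ := cfValue_mem (a := fun i => a (i + (n + 1))) fun i => ha _
  rw [digit, cq_cfValue ha, Int.floor_natCast_add, Int.floor_eq_zero_iff.2 ⟨h0, by linarith⟩,
    add_zero]

/-- Continued fractions that differ first in the digit `k` are apart. -/
theorem le_abs_cfValue_sub {B : ℕ → ℕ} :
    ∀ (k : ℕ) {a b : ℕ → ℕ}, (∀ i, 2 ≤ a i) → (∀ i, 2 ≤ b i) → (∀ i, a i + 1 ≤ B i) →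
      (∀ i, b i + 1 ≤ B i) → (∀ i < k, a i = b i) →
      |(a k : ℝ) - b k| / (2 * ∏ i ∈ range (k + 1), (B i : ℝ) ^ 2) ≤
        |cfValue a - cfValue b| := by
  intro k
  induction k generalizing B with
  | zero =>
    intro a b ha hb haB hbB _
    obtain ⟨u0, u1⟩ := cfValue_mem (a := fun i => a (i + 1)) fun i => ha (i + 1)
    obtain ⟨v0, v1⟩ := cfValue_mem (a := fun i => b (i + 1)) fun i => hb (i + 1)
    have ha0 : (2 : ℝ) ≤ a 0 := by exact_mod_cast ha 0
    have hb0 : (2 : ℝ) ≤ b 0 := by exact_mod_cast hb 0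
    have haB0 : (a 0 : ℝ) + 1 ≤ B 0 := by exact_mod_cast haB 0
    have hbB0 : (b 0 : ℝ) + 1 ≤ B 0 := by exact_mod_cast hbB 0
    set u := cfValue fun i => a (i + 1)
    set v := cfValue fun i => b (i + 1)
    rw [cfValue_eq ha, cfValue_eq hb, div_sub_div _ _ (by positivity) (by positivity), one_mul,
      mul_one, abs_div, abs_of_pos (show 0 < ((a 0 : ℝ) + u) * (b 0 + v) by positivity),
      prod_range_one]
    rcases eq_or_ne (a 0) (b 0) with he | hne
    · simp only [he, sub_self, abs_zero, zero_div]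
      positivity
    have hz : (1 : ℝ) ≤ |(a 0 : ℝ) - b 0| := by
      have h : ((a 0 : ℤ) - b 0) ≠ 0 := sub_ne_zero.2 (mod_cast hne)
      exact_mod_cast Int.one_le_abs h
    have huv : |u - v| ≤ 1 / 2 := abs_le.2 ⟨by linarith, by linarith⟩
    have hnum : |(a 0 : ℝ) - b 0| / 2 ≤ |(b 0 : ℝ) + v - (a 0 + u)| := by
      have := abs_sub_abs_le_abs_sub ((a 0 : ℝ) - b 0) (v - u)
      rw [abs_sub_comm v u, show (a 0 : ℝ) - b 0 - (v - u) = -((b 0 : ℝ) + v - (a 0 + u)) by ring,
        abs_neg] at this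
      linarith
    rw [← div_div]
    refine div_le_div₀ (abs_nonneg _) hnum (by positivity) ?_
    rw [sq]
    exact mul_le_mul (by linarith) (by linarith) (by positivity) (by positivity)
  | succ k ih =>
    intro a b ha hb haB hbB heq
    have ha' : ∀ i, 2 ≤ a (i + 1) := fun i => ha (i + 1)
    have hb' : ∀ i, 2 ≤ b (i + 1) := fun i => hb (i + 1)
    obtain ⟨u0, u1⟩ := cfValue_mem ha'
    obtain ⟨v0, v1⟩ := cfValue_mem hb'
    have h := ih (B := fun i => B (i + 1)) ha' hb' (fun i => haB (i + 1)) (fun i => hbB (i + 1))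
      fun i hi => heq (i + 1) (by omega)
    have ha0 : (2 : ℝ) ≤ a 0 := by exact_mod_cast ha 0
    have haB0 : (a 0 : ℝ) + 1 ≤ B 0 := by exact_mod_cast haB 0
    rw [cfValue_eq ha, cfValue_eq hb, ← heq 0 (by omega),
      abs_inv_sub_inv (by positivity) (by positivity), prod_range_succ', ← mul_assoc, ← div_div]
    refine div_le_div₀ (abs_nonneg _) h (by positivity) ?_
    rw [sq]
    exact mul_le_mul (by linarith) (by linarith) (by positivity) (by positivity)

/-- Two reals with the same digits up to `k` are close. -/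
theorem abs_sub_le_of_digit_eq :
    ∀ (k : ℕ) {u v : ℝ}, Irrational u → Irrational v →
      (∀ i ≤ k, digit u i = digit v i) →
      |u - v| ≤ ∏ i ∈ range k, ((digit u (i + 1) : ℝ) ^ 2)⁻¹ := by
  intro k
  induction k with
  | zero =>
    intro u v _ _ h
    exact (Int.abs_sub_lt_one_of_floor_eq_floor (h 0 le_rfl)).le
  | succ k ih =>
    intro u v hu hv h
    have hdu : ∀ i, digit u (i + 1) = digit (Int.fract u)⁻¹ i := fun i => by
      rw [digit, cq_succ', digit]
    have hdv : ∀ i, digit v (i + 1) = digit (Int.fract v)⁻¹ i := fun i => by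
      rw [digit, cq_succ', digit]
    have hi := ih (irrational_cq hu 1) (irrational_cq hv 1) fun i hi => by
      simpa [cq, ← hdu, ← hdv] using h (i + 1) (by omega)
    have h0 := cq_eq u 0
    have h0' := cq_eq v 0
    have hd : (1 : ℝ) ≤ digit u 1 := by exact_mod_cast one_le_digit hu 0
    have hU : (digit u 1 : ℝ) ≤ cq u 1 := Int.floor_le _
    have hV : (digit u 1 : ℝ) ≤ cq v 1 := by
      rw [h 1 (by omega)]
      exact Int.floor_le _
    have e : |u - v| = |cq u 1 - cq v 1| / (cq u 1 * cq v 1) := by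
      have a1 : (0 : ℝ) < cq u 1 := by linarith
      have a2 : (0 : ℝ) < cq v 1 := by linarith
      change u = digit u 0 + 1 / cq u (0 + 1) at h0
      change v = digit v 0 + 1 / cq v (0 + 1) at h0'
      rw [h 0 (Nat.zero_le _)] at h0
      simp only [zero_add] at h0 h0'
      rw [show u - v = 1 / cq u 1 - 1 / cq v 1 by linarith, div_sub_div _ _ a1.ne' a2.ne', abs_div,
        abs_of_pos (mul_pos a1 a2), one_mul, mul_one, abs_sub_comm]
    rw [e, prod_range_succ', ← div_eq_mul_inv]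
    simp only [cq, ← hdu] at hi
    refine div_le_div₀ (prod_nonneg fun i _ => by positivity) hi (by positivity) ?_
    rw [sq]
    exact mul_le_mul hU hV (by linarith) (by linarith)

end FA.GoodTheorem
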