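import Mathlib.Topology.MetricSpace.HausdorffDimension
import Mathlib.Analysis.PSeries
import Fermat.Agent.GoodTheorem.Expansion

/-!
# Good's theorem: the upper bound
-/

set_option autoImplicit false

noncomputable section

open Finset Filter Topology MeasureTheory Measure Metric
open scoped ENNReal NNReal

namespace FA.GoodTheorem

open FA.PeriodicFractions

/-- The irrationals whose digits tend to infinity. -/
def digitsTendTop : Set ℝ := {x | Irrational x ∧ Tendsto (fun n => digit x n) atTop atTop}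

/-- The irrationals with first digit `a₀` and all digits after the first `M` at least `N`. -/
def tailSet (a₀ : ℤ) (M N : ℕ) : Set ℝ :=
  {x | Irrational x ∧ digit x 0 = a₀ ∧ ∀ i, M ≤ i → (N : ℤ) ≤ digit x (i + 1)}

theorem tsum_prod_fin {k : ℕ} (f : Fin k → ℕ → ℝ≥0∞) :
    ∑' w : Fin k → ℕ, ∏ i, f i (w i) = ∏ i, ∑' a, f i a := by
  induction k with
  | zero =>
    rw [tsum_fintype]
    simp
  | succ k ih =>
    rw [← (Fin.consEquiv fun _ : Fin (k + 1) => ℕ).tsum_eq, ENNReal.tsum_prod',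
      Fin.prod_univ_succ]
    simp only [Fin.consEquiv_apply, Fin.prod_univ_succ, Fin.cons_zero, Fin.cons_succ]
    rw [← ih fun i => f i.succ, ← ENNReal.tsum_mul_right]
    exact tsum_congr fun a => ENNReal.tsum_mul_left

/-- The weight of a digit. -/
def digitWeight (s : ℝ) (a : ℕ) : ℝ≥0∞ := ENNReal.ofReal ((((a : ℝ) ^ 2)⁻¹) ^ s)

theorem tsum_digitWeight_ne_top {s : ℝ} (hs : 1 / 2 < s) : ∑' a, digitWeight s a ≠ ∞ := by
  have h : Summable fun a : ℕ => (((a : ℝ) ^ 2)⁻¹) ^ s :=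
    (Real.summable_nat_rpow.2 (by linarith : -(2 * s) < -1)).congr fun a => by
      rw [Real.inv_rpow (by positivity), ← Real.rpow_natCast, ← Real.rpow_mul (Nat.cast_nonneg a),
        Real.rpow_neg (Nat.cast_nonneg a)]
      push_cast
      rfl
  simp only [digitWeight]
  rw [← ENNReal.ofReal_tsum_of_nonneg (fun a => by positivity) h]
  exact ENNReal.ofReal_ne_top

theorem exists_tail_lt_one {s : ℝ} (hs : 1 / 2 < s) :
    ∃ N, 2 ≤ N ∧ ∑' a, (if a < N then 0 else digitWeight s a) < 1 := by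
  obtain ⟨N, hN, hN2⟩ := (((ENNReal.tendsto_sum_nat_add _
    (tsum_digitWeight_ne_top hs)).eventually (eventually_lt_nhds zero_lt_one)).and
      (eventually_ge_atTop 2)).exists
  refine ⟨N, hN2, lt_of_eq_of_lt ?_ hN⟩
  rw [← (add_left_injective N).tsum_eq (f := fun a => if a < N then 0 else digitWeight s a)]
  · simp
  · intro a ha
    have : ¬a < N := fun h => ha (if_pos h)
    exact ⟨a - N, by simp only; omega⟩

theorem hausdorffMeasure_tailSet {s : ℝ} (hs : 1 / 2 < s) {N : ℕ} (hN2 : 2 ≤ N)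
    (hN : ∑' a, (if a < N then 0 else digitWeight s a) < 1) (a₀ : ℤ) (M : ℕ) :
    μH[s] (tailSet a₀ M N) = 0 := by
  have hs0 : 0 < s := by linarith
  set f : ℕ → ℕ → ℝ≥0∞ := fun i a => if M ≤ i ∧ a < N then 0 else digitWeight s a with hf
  set t : (k : ℕ) → (Fin k → ℕ) → Set ℝ := fun k w =>
    {x | x ∈ tailSet a₀ M N ∧ ∀ i : Fin k, digit x (i + 1) = w i}
  have hdist : ∀ (k : ℕ) (w : Fin k → ℕ), ∀ u ∈ t k w, ∀ v ∈ t k w,
      |u - v| ≤ ∏ i : Fin k, (((w i : ℕ) : ℝ) ^ 2)⁻¹ := by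
    intro k w u hu v hv
    refine (abs_sub_le_of_digit_eq k hu.1.1 hv.1.1 fun i hi => ?_).trans_eq ?_
    · rcases i with _ | i
      · rw [hu.1.2.1, hv.1.2.1]
      · exact (hu.2 ⟨i, by omega⟩).trans (hv.2 ⟨i, by omega⟩).symm
    · rw [← Fin.prod_univ_eq_prod_range (fun i => ((digit u (i + 1) : ℝ) ^ 2)⁻¹) k]
      exact prod_congr rfl fun i _ => by rw [hu.2 i, Int.cast_natCast]
  have hdiam : ∀ (k : ℕ) (w : Fin k → ℕ),
      ediam (t k w) ≤ ENNReal.ofReal (∏ i : Fin k, (((w i : ℕ) : ℝ) ^ 2)⁻¹) := fun k w =>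
    Metric.ediam_le fun u hu v hv => by
      rw [edist_dist, Real.dist_eq]
      exact ENNReal.ofReal_le_ofReal (hdist k w u hu v hv)
  have hr : Tendsto (fun k : ℕ => ENNReal.ofReal ((1 / 4 : ℝ) ^ (k - M))) atTop (𝓝 0) := by
    rw [← ENNReal.ofReal_zero]
    exact ENNReal.tendsto_ofReal ((tendsto_pow_atTop_nhds_zero_of_lt_one (by norm_num)
      (by norm_num)).comp (tendsto_sub_atTop_nat M))
  have hsmall : ∀ᶠ k in atTop, ∀ w, ediam (t k w) ≤ ENNReal.ofReal ((1 / 4 : ℝ) ^ (k - M)) := by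
    filter_upwards [eventually_ge_atTop M] with k hk w
    rcases (t k w).eq_empty_or_nonempty with h | ⟨u, hu⟩
    · simp [h]
    refine (hdiam k w).trans (ENNReal.ofReal_le_ofReal ?_)
    have hw : ∀ i : Fin k, 1 ≤ w i ∧ (M ≤ (i : ℕ) → N ≤ w i) := fun i => by
      have h1 := one_le_digit hu.1.1 i
      rw [hu.2 i] at h1
      refine ⟨by exact_mod_cast h1, fun hi => ?_⟩
      have h2 := hu.1.2.2 i hi
      rw [hu.2 i] at h2
      exact_mod_cast h2
    calc ∏ i : Fin k, (((w i : ℕ) : ℝ) ^ 2)⁻¹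
        ≤ ∏ i : Fin k, if M ≤ (i : ℕ) then (1 / 4 : ℝ) else 1 := by
          refine prod_le_prod (fun i _ => by positivity) fun i _ => ?_
          split_ifs with hi
          · have : (2 : ℝ) ≤ (w i : ℕ) := by exact_mod_cast hN2.trans ((hw i).2 hi)
            rw [one_div]
            exact inv_anti₀ (by norm_num) (by nlinarith)
          · exact inv_le_one_of_one_le₀ (one_le_pow₀ (by exact_mod_cast (hw i).1))
      _ = (1 / 4 : ℝ) ^ (k - M) := by
          rw [Fin.prod_univ_eq_prod_range (fun i => if M ≤ i then (1 / 4 : ℝ) else 1) k]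
          obtain ⟨j, rfl⟩ := Nat.exists_eq_add_of_le hk
          rw [prod_range_add, Nat.add_sub_cancel_left,
            prod_eq_one fun i hi => if_neg (not_le.2 (mem_range.1 hi)), one_mul,
            prod_congr rfl fun i _ => if_pos (Nat.le_add_right M i), prod_const, card_range]
  have hsum : ∀ k, ∑' w, ediam (t k w) ^ s ≤ ∏ i ∈ range k, ∑' a, f i a := fun k => by
    rw [← Fin.prod_univ_eq_prod_range (fun i => ∑' a, f i a) k, ← tsum_prod_fin]
    refine ENNReal.tsum_le_tsum fun w => ?_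
    rcases (t k w).eq_empty_or_nonempty with h | ⟨u, hu⟩
    · simp [h, hs0]
    refine (ENNReal.rpow_le_rpow (hdiam k w) hs0.le).trans_eq ?_
    rw [ENNReal.ofReal_rpow_of_nonneg (prod_nonneg fun i _ => by positivity) hs0.le,
      ← Real.finsetProd_rpow _ _ (fun i _ => by positivity),
      ENNReal.ofReal_prod_of_nonneg fun i _ => by positivity]
    refine prod_congr rfl fun i _ => (if_neg fun h => ?_).symm
    have h2 := hu.1.2.2 i h.1
    rw [hu.2 i] at h2
    omega
  set ζ : ℝ≥0∞ := ∑' a, digitWeight s a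
  set ζN : ℝ≥0∞ := ∑' a, if a < N then 0 else digitWeight s a
  have hprod : ∀ᶠ k in atTop, ∏ i ∈ range k, ∑' a, f i a ≤ ζ ^ M * ζN ^ (k - M) := by
    filter_upwards [eventually_ge_atTop M] with k hk
    obtain ⟨j, rfl⟩ := Nat.exists_eq_add_of_le hk
    rw [prod_range_add, Nat.add_sub_cancel_left]
    refine mul_le_mul' ((prod_le_prod' (g := fun _ => ζ) fun i _ => ?_).trans_eq ?_) (le_of_eq ?_)
    · exact ENNReal.tsum_le_tsum fun a =>
        show f i a ≤ digitWeight s a by simp only [hf]; split_ifs <;> simp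
    · rw [prod_const, card_range]
    · simp [hf, ζN]
  have hlim : Tendsto (fun k => ∑' w, ediam (t k w) ^ s) atTop (𝓝 0) := by
    refine tendsto_of_tendsto_of_tendsto_of_le_of_le' tendsto_const_nhds ?_
      (Eventually.of_forall fun _ => zero_le) (hprod.mono fun k hk => (hsum k).trans hk)
    have := ENNReal.Tendsto.const_mul ((ENNReal.tendsto_pow_atTop_nhds_zero_of_lt_one hN).comp
      (tendsto_sub_atTop_nat M)) (Or.inr
        (ENNReal.pow_ne_top (n := M) (tsum_digitWeight_ne_top hs)))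
    rwa [mul_zero] at this
  refine le_antisymm ?_ zero_le
  rw [← hlim.liminf_eq]
  refine hausdorffMeasure_le_liminf_tsum s _ _ hr t hsmall
    (Eventually.of_forall fun k x hx => ?_)
  refine Set.mem_iUnion.2 ⟨fun i => (digit x (i + 1)).toNat, hx, fun i => ?_⟩
  exact (Int.toNat_of_nonneg (zero_le_one.trans (one_le_digit hx.1 i))).symm

theorem dimH_digitsTendTop_le : dimH digitsTendTop ≤ ENNReal.ofReal (1 / 2) := by
  refine le_of_forall_gt_imp_ge_of_dense fun c hc => ?_
  rcases eq_or_ne c ∞ with rfl | hctop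
  · exact le_top
  lift c to ℝ≥0 using hctop
  have hs : (1 / 2 : ℝ) < c := by
    rw [← ENNReal.ofReal_coe_nnreal] at hc
    exact ((ENNReal.ofReal_lt_ofReal_iff').1 hc).1
  obtain ⟨N, hN2, hN⟩ := exists_tail_lt_one hs
  refine dimH_le_of_hausdorffMeasure_ne_top ?_
  refine ne_of_eq_of_ne (measure_mono_null (fun x hx => ?_ :
    digitsTendTop ⊆ ⋃ p : ℤ × ℕ, tailSet p.1 p.2 N)
    (measure_iUnion_null fun p => hausdorffMeasure_tailSet hs hN2 hN p.1 p.2)) ENNReal.zero_ne_top
  obtain ⟨M, hM⟩ := eventually_atTop.1 (hx.2.eventually (eventually_ge_atTop (N : ℤ)))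
  exact Set.mem_iUnion.2 ⟨(digit x 0, M), hx.1, rfl, fun i hi => hM _ (by omega)⟩

end FA.GoodTheorem
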