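import Fermat.Agent.DigitFrequency.Billingsley
import Fermat.Agent.GoodTheorem.Upper

/-!
# Good's theorem: the lower bound

The digit number `i` runs through `[2 ^ (i + 1), 2 ^ (i + 2))`.
-/

set_option autoImplicit false

noncomputable section

open Finset Filter Topology MeasureTheory Measure Metric
open scoped ENNReal NNReal

namespace FA.GoodTheorem

open FA.PeriodicFractions FA.DigitFrequency

/-- The mass distribution principle on the line. -/
theorem hausdorffMeasure_ne_zero_of_small {α : Type*} {mα : MeasurableSpace α} (μ : Measure α)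
    (g : α → ℝ) {s C δ₀ : ℝ} (hs : 0 < s) (hC : 0 < C) (hδ₀ : 0 < δ₀) (hμ : μ Set.univ ≠ 0)
    {T : Set ℝ} (hT : ∀ a, g a ∈ T)
    (h : ∀ t : Set ℝ, ∀ δ, 0 < δ → δ < δ₀ → (∀ x ∈ t, ∀ y ∈ t, |x - y| ≤ δ) →
      μ (g ⁻¹' t) ≤ ENNReal.ofReal (C * δ ^ s)) :
    μH[s] T ≠ 0 := by
  suffices hle : μ Set.univ / ENNReal.ofReal C ≤ μH[s] T by
    intro h0
    rw [h0, nonpos_iff_eq_zero, ENNReal.div_eq_zero_iff] at hle
    exact hle.elim hμ ENNReal.ofReal_ne_top
  rw [hausdorffMeasure_apply]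
  refine le_iSup₂_of_le (ENNReal.ofReal (δ₀ / 2)) (ENNReal.ofReal_pos.2 (half_pos hδ₀))
    (le_iInf fun t => le_iInf fun hcov => le_iInf fun ht => ENNReal.div_le_of_le_mul' ?_)
  have hsub : Set.univ ⊆ ⋃ i, g ⁻¹' t i := fun a _ => by
    obtain ⟨i, hi⟩ := Set.mem_iUnion.1 (hcov (hT a))
    exact Set.mem_iUnion.2 ⟨i, hi⟩
  refine ((measure_mono hsub).trans (measure_iUnion_le _)).trans ?_
  rw [← ENNReal.tsum_mul_left]
  refine ENNReal.tsum_le_tsum fun i => ?_
  rcases (t i).eq_empty_or_nonempty with h0 | hne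
  · simp [h0]
  have htop : ediam (t i) ≠ ∞ := ne_top_of_le_ne_top ENNReal.ofReal_ne_top (ht i)
  set d : ℝ := (ediam (t i)).toReal with hd
  have hd0 : 0 ≤ d := ENNReal.toReal_nonneg
  have hdle : d ≤ δ₀ / 2 := ENNReal.toReal_le_of_le_ofReal (half_pos hδ₀).le (ht i)
  have hlim : Tendsto (fun δ => ENNReal.ofReal (C * δ ^ s)) (𝓝[>] d)
      (𝓝 (ENNReal.ofReal (C * d ^ s))) :=
    ENNReal.tendsto_ofReal (((Real.continuousAt_rpow_const d s
      (Or.inr hs.le)).tendsto.mono_left nhdsWithin_le_nhds).const_mul C)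
  refine (ge_of_tendsto hlim (b := μ (g ⁻¹' t i)) ?_).trans ?_
  · filter_upwards [self_mem_nhdsWithin, mem_nhdsWithin_of_mem_nhds
      (eventually_lt_nhds (show d < δ₀ by linarith))] with δ hδ hδN
    refine h _ δ (hd0.trans_lt hδ) hδN fun x hx y hy => le_trans ?_ (le_of_lt hδ)
    rw [← Real.dist_eq, dist_edist]
    exact ENNReal.toReal_mono htop (edist_le_ediam_of_mem hx hy)
  · rw [ENNReal.ofReal_mul hC.le, ← ENNReal.ofReal_rpow_of_nonneg hd0 hs.le, hd,
      ENNReal.ofReal_toReal htop]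
    gcongr
    exact le_iSup_of_le hne le_rfl

/-- The width of the window of the digit `i`. -/
def window (i : ℕ) : ℕ := 2 ^ (i + 1)

/-- The digits of a path. -/
def pathDigit (ω : ∀ i, Fin (window i)) (i : ℕ) : ℕ := window i + ω i

/-- The law on paths. -/
def pathLaw : Measure (∀ i, Fin (window i)) :=
  Measure.infinitePi fun i => digitLaw fun _ : Fin (window i) => 1 / (window i : ℝ)

/-- The sum of the exponents of the first `n` windows. -/
def expSum (n : ℕ) : ℕ := ∑ i ∈ range n, (i + 1)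

theorem two_mul_expSum : ∀ n, 2 * expSum n = n * (n + 1)
  | 0 => by simp [expSum]
  | n + 1 => by
    rw [expSum, sum_range_succ, ← expSum, mul_add, two_mul_expSum n]
    ring

theorem prod_window (n : ℕ) : ∏ i ∈ range n, (window i : ℝ) = 2 ^ expSum n := by
  rw [expSum, ← prod_pow_eq_pow_sum]
  exact prod_congr rfl fun i _ => by simp [window]

theorem two_le_pathDigit (ω : ∀ i, Fin (window i)) (i : ℕ) : 2 ≤ pathDigit ω i :=
  (Nat.le_self_pow i.succ_ne_zero 2).trans (Nat.le_add_right _ _)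

theorem pathDigit_lt (ω : ∀ i, Fin (window i)) (i : ℕ) : pathDigit ω i + 1 ≤ 2 * window i := by
  have := (ω i).isLt
  rw [pathDigit]
  omega

theorem isProbabilityMeasure_window (i : ℕ) :
    IsProbabilityMeasure (digitLaw fun _ : Fin (window i) => 1 / (window i : ℝ)) :=
  isProbabilityMeasure_digitLaw (fun _ => by positivity) (by
    rw [sum_const, card_univ, Fintype.card_fin, nsmul_eq_mul,
      mul_one_div_cancel (Nat.cast_ne_zero.2 (by simp [window]))])

theorem pathLaw_univ : pathLaw Set.univ ≠ 0 := by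
  have := isProbabilityMeasure_window
  have : IsProbabilityMeasure pathLaw := by unfold pathLaw; infer_instance
  rw [measure_univ]
  exact one_ne_zero

theorem pathLaw_cylinder (ω : ∀ i, Fin (window i)) (n : ℕ) :
    pathLaw {η | ∀ i < n, η i = ω i} = ENNReal.ofReal (1 / (2 : ℝ) ^ expSum n) := by
  have := isProbabilityMeasure_window
  have hset : {η : ∀ i, Fin (window i) | ∀ i < n, η i = ω i} =
      Set.pi (↑(range n)) (fun i => {ω i}) := by
    ext η
    simp [Set.mem_pi]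
  rw [hset, pathLaw, Measure.infinitePi_pi _ fun i _ => MeasurableSet.singleton (ω i),
    ← prod_window, one_div, ← prod_inv_distrib,
    ENNReal.ofReal_prod_of_nonneg fun i _ => by positivity]
  exact prod_congr rfl fun i _ => by rw [digitLaw_singleton, one_div]

/-- The squares of the bounds of the first `n` digits. -/
def spread (n : ℕ) : ℝ := ∏ i ∈ range n, ((2 * window i : ℕ) : ℝ) ^ 2

theorem spread_eq (n : ℕ) : spread n = 2 ^ (2 * n + 2 * expSum n) := by
  rw [spread, prod_congr rfl fun i _ => show (((2 * window i : ℕ) : ℝ)) ^ 2 =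
    (2 : ℝ) ^ 2 * (window i : ℝ) ^ 2 by push_cast; ring, prod_mul_distrib, prod_const, card_range,
    prod_pow, prod_window, ← pow_mul, ← pow_mul, ← pow_add, mul_comm (expSum n)]

theorem spread_mono : Monotone spread := fun m n h => by
  rw [spread_eq, spread_eq]
  exact pow_le_pow_right₀ one_le_two
    (by have : expSum m ≤ expSum n := sum_le_sum_of_subset (range_mono h); omega)

theorem exponent_bound {s : ℝ} (hs0 : 0 ≤ s) (hs : s < 1 / 2) :
    ∀ᶠ n : ℕ in atTop, ((2 : ℝ) ^ (n + 1)) ^ (1 - s) * spread (n + 1) ^ s ≤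
      (2 : ℝ) ^ expSum (n + 1) := by
  filter_upwards [tendsto_natCast_atTop_atTop.eventually
    (eventually_ge_atTop (6 / (1 - 2 * s)))] with n hn
  rw [div_le_iff₀ (by linarith)] at hn
  have hT : 2 * (expSum n : ℝ) = n * (n + 1) := by exact_mod_cast two_mul_expSum n
  have hkey : 3 * ((n : ℝ) + 1) ≤ (1 - 2 * s) * expSum n := by
    nlinarith [mul_le_mul_of_nonneg_right hn (by positivity : (0 : ℝ) ≤ (n : ℝ) + 1)]
  have hT1 : (expSum (n + 1) : ℝ) = expSum n + (n + 1) := by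
    rw [expSum, sum_range_succ, ← expSum]
    push_cast
    ring
  rw [spread_eq, ← Real.rpow_natCast, ← Real.rpow_natCast 2 (2 * (n + 1) + 2 * expSum (n + 1)),
    ← Real.rpow_natCast 2 (expSum (n + 1)), ← Real.rpow_mul two_pos.le,
    ← Real.rpow_mul two_pos.le, ← Real.rpow_add two_pos]
  refine Real.rpow_le_rpow_of_exponent_le one_le_two ?_
  push_cast
  rw [hT1]
  nlinarith [mul_nonneg hs0 (by positivity : (0 : ℝ) ≤ (n : ℝ) + 1)]

theorem pathLaw_preimage_le {s : ℝ} (hs0 : 0 < s) (hs : s < 1 / 2) {N : ℕ}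
    (hN : ∀ n, N ≤ n → ((2 : ℝ) ^ (n + 1)) ^ (1 - s) * spread (n + 1) ^ s ≤
      (2 : ℝ) ^ expSum (n + 1))
    (t : Set ℝ) {δ : ℝ} (hδ0 : 0 < δ) (hδ : δ < 1 / (2 * spread N))
    (ht : ∀ x ∈ t, ∀ y ∈ t, |x - y| ≤ δ) :
    pathLaw ((fun ω => cfValue (pathDigit ω)) ⁻¹' t) ≤ ENNReal.ofReal (6 * δ ^ s) := by
  have hPpos : ∀ n, 0 < spread n := fun n => by rw [spread_eq]; positivity
  have hex : ∃ m, 1 ≤ 2 * δ * spread m := by
    obtain ⟨m, hm⟩ := pow_unbounded_of_one_lt (1 / (2 * δ)) (one_lt_two (α := ℝ))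
    refine ⟨m, ?_⟩
    rw [div_lt_iff₀ (by positivity)] at hm
    refine hm.le.trans ?_
    rw [mul_comm, spread_eq]
    gcongr
    · exact one_le_two
    · omega
  have hNm : N < Nat.find hex := by
    by_contra! hle
    have := (Nat.find_spec hex).trans
      (mul_le_mul_of_nonneg_left (spread_mono hle) (by positivity))
    rw [lt_div_iff₀ (mul_pos two_pos (hPpos N))] at hδ
    linarith
  obtain ⟨n, hn⟩ : ∃ n, Nat.find hex = n + 1 := ⟨Nat.find hex - 1, by omega⟩
  have hn1 : 1 ≤ 2 * δ * spread (n + 1) := hn ▸ Nat.find_spec hex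
  have hn2 : 2 * δ * spread n < 1 := not_le.1 (Nat.find_min hex (by omega))
  rcases Set.eq_empty_or_nonempty ((fun ω => cfValue (pathDigit ω)) ⁻¹' t) with h0 | ⟨ω₀, hω₀⟩
  · simp [h0]
  set A := (fun ω => cfValue (pathDigit ω)) ⁻¹' t with hA
  have hsep : ∀ ω ∈ A, ∀ k, (∀ i < k, ω i = ω₀ i) →
      |((ω k : ℕ) : ℝ) - (ω₀ k : ℕ)| ≤ 2 * δ * spread (k + 1) := by
    intro ω hω k hk
    have h := (le_abs_cfValue_sub (B := fun i => 2 * window i) k (two_le_pathDigit ω)
      (two_le_pathDigit ω₀) (pathDigit_lt ω) (pathDigit_lt ω₀)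
      fun i hi => by simp only [pathDigit, hk i hi]).trans (ht _ hω _ hω₀)
    rw [← spread, div_le_iff₀ (mul_pos two_pos (hPpos _)), pathDigit, pathDigit, Nat.cast_add,
      Nat.cast_add, add_sub_add_left_eq_sub] at h
    linarith
  have hagree : ∀ ω ∈ A, ∀ i < n, ω i = ω₀ i := by
    intro ω hω i
    induction i using Nat.strong_induction_on with
    | _ i ih =>
      intro hi
      by_contra hne
      have h := hsep ω hω i fun j hj => ih j hj (hj.trans hi)
      have h1 : (1 : ℝ) ≤ |((ω i : ℕ) : ℝ) - (ω₀ i : ℕ)| := by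
        have hz : (((ω i : ℕ) : ℤ) - (ω₀ i : ℕ)) ≠ 0 :=
          sub_ne_zero.2 fun e => hne (Fin.ext (by exact_mod_cast e))
        exact_mod_cast Int.one_le_abs hz
      have := mul_le_mul_of_nonneg_left (spread_mono (show i + 1 ≤ n by omega))
        (by positivity : (0 : ℝ) ≤ 2 * δ)
      linarith
  set R : ℝ := 2 * δ * spread (n + 1) with hR
  set F : Finset (Fin (window n)) :=
    univ.filter fun k => |((k : ℕ) : ℝ) - (ω₀ n : ℕ)| ≤ R with hF
  have hFcard : (F.card : ℝ) ≤ 3 * R := by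
    have h : F.card ≤ (Finset.Icc ⌈((ω₀ n : ℕ) : ℝ) - R⌉ ⌊((ω₀ n : ℕ) : ℝ) + R⌋).card := by
      refine card_le_card_of_injOn (fun k : Fin (window n) => ((k : ℕ) : ℤ)) (fun k hk => ?_)
        fun k _ k' _ h => Fin.ext (Int.ofNat_inj.1 h)
      obtain ⟨h1, h2⟩ := abs_le.1 (mem_filter.1 hk).2
      simp only [coe_Icc, Set.mem_Icc, Int.ceil_le, Int.le_floor, Int.cast_natCast]
      constructor <;> linarith
    rw [Int.card_Icc] at h
    have h' : (F.card : ℝ) ≤
        (((⌊((ω₀ n : ℕ) : ℝ) + R⌋ + 1 - ⌈((ω₀ n : ℕ) : ℝ) - R⌉).toNat : ℤ) : ℝ) := by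
      exact_mod_cast h
    rw [Int.toNat_eq_max, Int.cast_max, Int.cast_zero] at h'
    refine h'.trans (max_le ?_ (by linarith))
    push_cast
    linarith [Int.floor_le (((ω₀ n : ℕ) : ℝ) + R), Int.le_ceil (((ω₀ n : ℕ) : ℝ) - R)]
  have hFle : (F.card : ℝ) ≤ ((2 : ℝ) ^ (n + 1)) ^ (1 - s) * (3 * R) ^ s := by
    have hW : (F.card : ℝ) ≤ (2 : ℝ) ^ (n + 1) := by
      have h := card_filter_le (univ : Finset (Fin (window n)))
        fun k => |((k : ℕ) : ℝ) - (ω₀ n : ℕ)| ≤ R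
      rw [card_univ, Fintype.card_fin, ← hF] at h
      exact_mod_cast h
    rcases eq_or_lt_of_le (Nat.cast_nonneg (α := ℝ) F.card) with h | h
    · rw [← h]; positivity
    · calc (F.card : ℝ) = (F.card : ℝ) ^ (1 - s) * (F.card : ℝ) ^ s := by
            rw [← Real.rpow_add h, sub_add_cancel, Real.rpow_one]
        _ ≤ _ := by gcongr; linarith
  have hcov : A ⊆ ⋃ k ∈ F, {ω | ω ∈ A ∧ ω n = k} := fun ω hω => by
    refine Set.mem_iUnion₂.2 ⟨ω n, mem_filter.2 ⟨mem_univ _, ?_⟩, hω, rfl⟩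
    exact hsep ω hω n (hagree ω hω)
  refine ((measure_mono hcov).trans (measure_biUnion_finset_le _ _)).trans ?_
  refine (sum_le_card_nsmul _ _ (ENNReal.ofReal (1 / (2 : ℝ) ^ expSum (n + 1)))
    fun k _ => ?_).trans ?_
  · rcases Set.eq_empty_or_nonempty {ω | ω ∈ A ∧ ω n = k} with h | ⟨ω₁, hω₁, hk⟩
    · simp [h]
    · rw [← pathLaw_cylinder ω₁ (n + 1)]
      refine measure_mono fun ω hω i hi => ?_
      rcases Nat.lt_succ_iff_lt_or_eq.1 hi with hi | rfl
      · rw [hagree ω hω.1 i hi, hagree ω₁ hω₁ i hi]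
      · rw [hω.2, hk]
  rw [nsmul_eq_mul, ← ENNReal.ofReal_natCast, ← ENNReal.ofReal_mul (Nat.cast_nonneg _)]
  refine ENNReal.ofReal_le_ofReal ?_
  rw [mul_one_div, div_le_iff₀ (by positivity)]
  have hnN := hN n (by omega)
  have h6 : (6 : ℝ) ^ s ≤ 6 := Real.rpow_le_self_of_one_le (by norm_num) (by linarith)
  have hPs := Real.rpow_nonneg (hPpos (n + 1)).le s
  calc (F.card : ℝ) ≤ ((2 : ℝ) ^ (n + 1)) ^ (1 - s) * (3 * R) ^ s := hFle
    _ = (6 : ℝ) ^ s * δ ^ s * (((2 : ℝ) ^ (n + 1)) ^ (1 - s) * spread (n + 1) ^ s) := by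
        rw [hR, show 3 * (2 * δ * spread (n + 1)) = 6 * δ * spread (n + 1) by ring,
          Real.mul_rpow (by positivity) (hPpos _).le, Real.mul_rpow (by norm_num) hδ0.le]
        ring
    _ ≤ 6 * δ ^ s * (2 : ℝ) ^ expSum (n + 1) := by gcongr

theorem le_dimH_digitsTendTop : ENNReal.ofReal (1 / 2) ≤ dimH digitsTendTop := by
  refine le_of_forall_lt_imp_le_of_dense fun c hc => ?_
  lift c to ℝ≥0 using hc.ne_top
  rcases eq_or_ne c 0 with rfl | hc0
  · exact zero_le
  have hc1 : (0 : ℝ) < c := NNReal.coe_pos.2 (pos_iff_ne_zero.2 hc0)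
  rw [← ENNReal.ofReal_coe_nnreal, ENNReal.ofReal_lt_ofReal_iff'] at hc
  obtain ⟨N, hN⟩ := eventually_atTop.1 (exponent_bound hc1.le hc.1)
  have hT : ∀ ω, cfValue (pathDigit ω) ∈ digitsTendTop ∪ Set.range (Rat.cast : ℚ → ℝ) := by
    intro ω
    by_cases hx : Irrational (cfValue (pathDigit ω))
    · refine Or.inl ⟨hx, (tendsto_add_atTop_iff_nat 1).1 ?_⟩
      refine tendsto_atTop_mono (fun n => ?_) tendsto_natCast_atTop_atTop
      rw [digit_cfValue (two_le_pathDigit ω)]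
      exact_mod_cast le_trans (Nat.lt_two_pow_self (n := n)).le
        ((Nat.pow_le_pow_right two_pos n.le_succ).trans (Nat.le_add_right _ _))
    · exact Or.inr (not_not.1 hx)
  have h := le_dimH_of_hausdorffMeasure_ne_zero (hausdorffMeasure_ne_zero_of_small pathLaw
    (fun ω => cfValue (pathDigit ω)) hc1 (by norm_num : (0 : ℝ) < 6)
    (δ₀ := 1 / (2 * spread N)) (by rw [spread_eq]; positivity) pathLaw_univ hT
    fun t δ hδ0 hδ ht => pathLaw_preimage_le hc1 hc.1 hN t hδ0 hδ ht)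
  rwa [dimH_union, dimH_countable (Set.countable_range _), max_eq_left zero_le] at h

end FA.GoodTheorem
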